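import Mathlib
import Fermat.Prelude.Def_FLTPrelim_GaloisRep
import Fermat.Prelude.Def_FLTPrelim_Modularity
import Fermat.Prelude.Def_FLTPrelim_ModularRep

/-!
# S52 (the 3–5 switch): top-level seams and the proved top assembly

`s52_main` proves the frozen S52 statement from four seams:

* `s52_AP_stmt`     [AP]     `E[5] ≅ E'[5]` as Galois modules `⟹` `a_ℓ(E') ≡ a_ℓ(E) mod 5`;
* `s52_Irr3_stmt`   [IRR3]   no rational point on `X₀(3)` above `j(E')` `⟹` `E'[3]` irreducible;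
* `s52_HIT_stmt`    [HIT]    weak Hilbert irreducibility (no rational root in the fibre);
                             = `s52h_hit_avoid` of `S52/HIT/Main.lean` after `s = M t`;
* `s52_Family_stmt` [FAMILY] the integral, semistable family with constant mod-5 representation.
-/

set_option autoImplicit false

namespace Fermat.Agent.S52

open WeierstrassCurve Polynomial
open scoped WeierstrassCurve.Affine

/-- `ℚ̄` -/
abbrev s52_Qb : Type := AlgebraicClosure ℚ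

/-- `Gal(ℚ̄/ℚ)` -/
abbrev s52_G : Type := s52_Qb ≃ₐ[ℚ] s52_Qb

/-- the `n`-torsion of `E(ℚ̄)`, for a Weierstrass curve `E` over `ℚ` -/
abbrev s52_Tors (E : WeierstrassCurve.Affine ℚ) (n : ℕ) : Type :=
  Submodule.torsionBy ℤ (E⁄s52_Qb).Point n

/-- `E[n] ≅ E'[n]` as `Gal(ℚ̄/ℚ)`-modules -/
def s52_TorsIso (E E' : WeierstrassCurve.Affine ℚ) (n : ℕ) : Prop :=
  ∃ φ : s52_Tors E n ≃+ s52_Tors E' n,
    ∀ (σ : s52_G) (P : s52_Tors E n), φ (σ • P) = σ • φ P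

/-- **[AP]** -/
def s52_AP_stmt : Prop :=
  ∀ (W W' : WeierstrassCurve ℤ), W.Δ ≠ 0 → W'.Δ ≠ 0 →
    s52_TorsIso (W.map (Int.castRingHom ℚ)) (W'.map (Int.castRingHom ℚ)) 5 →
    ∀ ℓ : ℕ, ℓ.Prime → W.IsGoodPrimeFor ℓ → W'.IsGoodPrimeFor ℓ → ℓ ≠ 5 →
      (5 : ℤ) ∣ (W'.apOfModel ℓ - W.apOfModel ℓ)

/-- **[IRR3]** `X₀(3)` is the `h`-line with `j = (h+27)(h+3)³/h`; `j = c₄³/Δ`. -/
def s52_Irr3_stmt : Prop :=
  ∀ (W : WeierstrassCurve ℤ), W.Δ ≠ 0 →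
    (∀ h : ℚ, (h + 27) * (h + 3) ^ 3 * (W.Δ : ℚ) ≠ (W.c₄ : ℚ) ^ 3 * h) →
    W.ModRepIsIrreducible 3

/-- `P ∈ ℚ[s][X]` (outer variable `X`, inner variable `s`) has no root in `ℚ(s)` -/
def s52_Rootless (P : Polynomial (Polynomial ℚ)) : Prop :=
  ∀ h : RatFunc ℚ, (P.map (algebraMap (Polynomial ℚ) (RatFunc ℚ))).eval h ≠ 0

/-- **[HIT]** weak Hilbert irreducibility over `ℚ`, for specialisations `s = M t`, `t ∈ ℤ`
(proved in `S52/HIT/Main.lean` as `s52h_hit_avoid`, modulo the substitution `s = M t`). -/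
def s52_HIT_stmt : Prop :=
  ∀ P : Polynomial (Polynomial ℚ), s52_Rootless P →
    ∀ M : ℤ, M ≠ 0 → ∀ T : Finset ℤ, ∃ t : ℤ, t ∉ T ∧
      ∀ x : ℚ, (P.map (Polynomial.evalRingHom (((M * t : ℤ) : ℚ)))).eval x ≠ 0

/-- the quartic `(X+27)(X+3)³ (C₄³ - C₆²) - 1728 C₄³ X ∈ ℚ[s][X]`, whose roots are the points of
`X₀(3)` above `j = 1728 C₄³ / (C₄³ - C₆²)` -/
noncomputable def s52_quartic (C4 C6 : Polynomial ℚ) : Polynomial (Polynomial ℚ) :=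
  (X + C 27) * (X + C 3) ^ 3 * C (C4 ^ 3 - C6 ^ 2) - C (1728 * C4 ^ 3) * X

/-- **[FAMILY]** -/
def s52_Family_stmt : Prop :=
  ∀ (W : WeierstrassCurve ℤ), W.Δ ≠ 0 → W.IsSemistableModel → W.ModRepIsIrreducible 5 →
    ∃ (C4 C6 : Polynomial ℚ) (M : ℤ) (T : Finset ℤ), M ≠ 0 ∧
      s52_Rootless (s52_quartic C4 C6) ∧
      ∀ t : ℤ, t ∉ T → ∃ W' : WeierstrassCurve ℤ,
        (W'.c₄ : ℚ) = C4.eval (((M * t : ℤ) : ℚ)) ∧ (W'.c₆ : ℚ) = C6.eval (((M * t : ℤ) : ℚ)) ∧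
        W'.Δ ≠ 0 ∧ W'.IsSemistableModel ∧
        s52_TorsIso (W.map (Int.castRingHom ℚ)) (W'.map (Int.castRingHom ℚ)) 5

theorem s52_quartic_eval (C4 C6 : Polynomial ℚ) (c x : ℚ) :
    ((s52_quartic C4 C6).map (Polynomial.evalRingHom c)).eval x =
      (x + 27) * (x + 3) ^ 3 * ((C4.eval c) ^ 3 - (C6.eval c) ^ 2)
        - 1728 * (C4.eval c) ^ 3 * x := by
  simp [s52_quartic, Polynomial.coe_evalRingHom]

/-- **The top assembly**: the frozen S52 statement from the four seams. -/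
theorem s52_main (hAP : s52_AP_stmt) (hI : s52_Irr3_stmt) (hH : s52_HIT_stmt)
    (hF : s52_Family_stmt)
    (W : WeierstrassCurve ℤ) (hΔ : W.Δ ≠ 0) (hW : W.IsSemistableModel)
    (h5 : W.ModRepIsIrreducible 5) :
    ∃ W' : WeierstrassCurve ℤ, W'.Δ ≠ 0 ∧ W'.IsSemistableModel ∧ W'.ModRepIsIrreducible 3 ∧
      ∀ ℓ : ℕ, ℓ.Prime → W.IsGoodPrimeFor ℓ → W'.IsGoodPrimeFor ℓ → ℓ ≠ 5 →
        (5 : ℤ) ∣ (W'.apOfModel ℓ - W.apOfModel ℓ) := by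
  by_cases h3 : W.ModRepIsIrreducible 3
  · exact ⟨W, hΔ, hW, h3, fun ℓ _ _ _ _ => by simp⟩
  · obtain ⟨C4, C6, M, T, hM, hroot, hfam⟩ := hF W hΔ hW h5
    obtain ⟨t, htT, ht⟩ := hH _ hroot M hM T
    obtain ⟨W', h4, h6, hΔ', hW', hiso⟩ := hfam t htT
    refine ⟨W', hΔ', hW', ?_, hAP W W' hΔ hΔ' hiso⟩
    refine hI W' hΔ' ?_
    intro h hh
    apply ht h
    rw [s52_quartic_eval, ← h4, ← h6]
    have hrel : (1728 : ℚ) * (W'.Δ : ℚ) = (W'.c₄ : ℚ) ^ 3 - (W'.c₆ : ℚ) ^ 2 := by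
      have := W'.c_relation
      exact_mod_cast this
    rw [← hrel]
    linear_combination (1728 : ℚ) * hh

end Fermat.Agent.S52
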