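import Fermat.Agent.S52.Seams
import Fermat.Agent.S52.HIT.Main

/-!
# S52: the seam `s52_HIT_stmt` is closed (from `s52h_hit_avoid`, by the substitution `s = M t`)
-/

set_option autoImplicit false

namespace Fermat.Agent.S52

open Polynomial

/-- the substitution `s ↦ M s` on `ℚ[s]`, as a ring automorphism -/
noncomputable def s52u_scale (M : ℚ) (hM : M ≠ 0) : ℚ[X] ≃+* ℚ[X] :=
  letI : Invertible M := invertibleOfNonzero hM
  (algEquivCMulXAddC M 0).toRingEquiv

theorem s52u_scale_apply (M : ℚ) (hM : M ≠ 0) (p : ℚ[X]) :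
    s52u_scale M hM p = p.comp (C M * X) := by
  let _ : Invertible M := invertibleOfNonzero hM
  show (algEquivCMulXAddC M 0) p = _
  simp [algEquivCMulXAddC_apply, Polynomial.aeval_def, Polynomial.comp, Polynomial.eval₂_eq_eval_map]

theorem s52u_scale_eval (M : ℚ) (hM : M ≠ 0) (p : ℚ[X]) (t : ℚ) :
    (s52u_scale M hM p).eval t = p.eval (M * t) := by
  rw [s52u_scale_apply, eval_comp]
  simp

/-- the induced automorphism of `ℚ(s)` -/
noncomputable def s52u_scaleK (M : ℚ) (hM : M ≠ 0) : RatFunc ℚ ≃+* RatFunc ℚ :=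
  IsFractionRing.ringEquivOfRingEquiv (s52u_scale M hM)

theorem s52u_scaleK_algebraMap (M : ℚ) (hM : M ≠ 0) (p : ℚ[X]) :
    s52u_scaleK M hM (algebraMap ℚ[X] (RatFunc ℚ) p) =
      algebraMap ℚ[X] (RatFunc ℚ) (s52u_scale M hM p) :=
  IsFractionRing.ringEquivOfRingEquiv_algebraMap _ _

theorem s52u_rootless (P : ℚ[X][X]) (hP : s52_Rootless P) (M : ℚ) (hM : M ≠ 0) :
    ∀ r : RatFunc ℚ,
      eval r ((P.map (s52u_scale M hM : ℚ[X] →+* ℚ[X])).map (algebraMap ℚ[X] (RatFunc ℚ))) ≠ 0 := by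
  intro r hr
  apply hP ((s52u_scaleK M hM).symm r)
  have hcomp : (algebraMap ℚ[X] (RatFunc ℚ)).comp (s52u_scale M hM : ℚ[X] →+* ℚ[X]) =
      ((s52u_scaleK M hM : RatFunc ℚ ≃+* RatFunc ℚ) : RatFunc ℚ →+* RatFunc ℚ).comp
        (algebraMap ℚ[X] (RatFunc ℚ)) := by
    refine RingHom.ext fun p => ?_
    simp only [RingHom.comp_apply, RingEquiv.coe_toRingHom]
    rw [s52u_scaleK_algebraMap]
  rw [Polynomial.map_map, hcomp, ← Polynomial.map_map] at hr
  have h2 : (s52u_scaleK M hM)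
      (eval ((s52u_scaleK M hM).symm r) (P.map (algebraMap ℚ[X] (RatFunc ℚ)))) = 0 := by
    have := Polynomial.eval_map_apply (p := P.map (algebraMap ℚ[X] (RatFunc ℚ)))
      ((s52u_scaleK M hM : RatFunc ℚ ≃+* RatFunc ℚ) : RatFunc ℚ →+* RatFunc ℚ)
      ((s52u_scaleK M hM).symm r)
    simp only [RingEquiv.coe_toRingHom, RingEquiv.apply_symm_apply] at this
    rw [← this]
    exact hr
  exact (map_eq_zero_iff _ (s52u_scaleK M hM).injective).1 h2

theorem s52u_evalEval (P : ℚ[X][X]) (M : ℚ) (hM : M ≠ 0) (t y : ℚ) :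
    evalEval t y (P.map (s52u_scale M hM : ℚ[X] →+* ℚ[X])) =
      (P.map (evalRingHom (M * t))).eval y := by
  rw [evalEval]
  induction P using Polynomial.induction_on' with
  | add p q hp hq => simp only [Polynomial.map_add, eval_add, hp, hq]
  | monomial n a =>
    simp only [Polynomial.map_monomial, eval_monomial, eval_mul, eval_pow, eval_C,
      RingEquiv.coe_toRingHom, coe_evalRingHom, s52u_scale_eval]

/-- **[HIT] closed.** -/
theorem s52u_HIT : s52_HIT_stmt := by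
  intro P hP M hM T
  have hMq : (M : ℚ) ≠ 0 := by exact_mod_cast hM
  obtain ⟨t, htT, ht⟩ := s52h_hit_avoid (P.map (s52u_scale (M : ℚ) hMq : ℚ[X] →+* ℚ[X]))
    (s52u_rootless P hP (M : ℚ) hMq) T
  refine ⟨t, htT, fun x hx => ht x ?_⟩
  rw [s52u_evalEval]
  have : ((M * t : ℤ) : ℚ) = (M : ℚ) * (t : ℚ) := by push_cast; ring
  rw [← this]
  exact hx

end Fermat.Agent.S52
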